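/-
S48, block BB, sub-block V (vertical input: the Gauss valuation of the function field of
`±Γ₁(M) ∩ Γ₀(M r)`).  Architect and owner of this file: helper76.

ABSTRACT FILE (Mathlib only).  A group `Γ` acts on a field `L` through a finite quotient; `B` is a
subgroup of `Γ`.  The image `img L B` of `B` in `RingAut L` is a finite group acting faithfully
on `L`, and it is "the" Galois group of `L` over any field `F` mapping onto the fixed field of `B`.
-/
import Mathlib

set_option autoImplicit false

namespace Fermat.Agent.S48.BB.V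

variable {Γ : Type*} (L : Type*) [Group Γ] [Field L] [MulSemiringAction Γ L]

/-- The image of the subgroup `B` in the group of ring automorphisms of `L`. -/
def img (B : Subgroup Γ) : Subgroup (RingAut L) := B.map (MulSemiringAction.toRingAut Γ L)

variable {L}

theorem mem_img {B : Subgroup Γ} {g : RingAut L} :
    g ∈ img L B ↔ ∃ b ∈ B, ∀ y : L, g y = b • y := by
  constructor
  · rintro ⟨b, hb, rfl⟩
    exact ⟨b, hb, fun _ => rfl⟩
  · rintro ⟨b, hb, h⟩
    exact ⟨b, hb, RingEquiv.ext fun y => (h y).symm⟩

theorem exists_of_img {B : Subgroup Γ} (g : img L B) : ∃ b ∈ B, ∀ y : L, g • y = b • y :=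
  mem_img.mp g.2

/-- The element of `img L B` attached to `b ∈ B`. -/
def toImg {B : Subgroup Γ} (b : Γ) (hb : b ∈ B) : img L B :=
  ⟨MulSemiringAction.toRingAut Γ L b, b, hb, rfl⟩

theorem toImg_smul {B : Subgroup Γ} (b : Γ) (hb : b ∈ B) (y : L) : toImg (L := L) b hb • y = b • y :=
  rfl

instance faithful_img (B : Subgroup Γ) : FaithfulSMul (img L B) L :=
  ⟨fun {g g'} h => Subtype.ext (RingEquiv.ext h)⟩

/-- If a subgroup of finite index acts trivially, the image of `B` is finite. -/
theorem finite_img (B N' : Subgroup Γ) [N'.FiniteIndex] (hN : ∀ n ∈ N', ∀ y : L, n • y = y) :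
    Finite (img L B) := by
  have hle : N' ≤ (MulSemiringAction.toRingAut Γ L).ker := by
    intro n hn
    rw [MonoidHom.mem_ker]
    exact RingEquiv.ext fun y => hN n hn y
  haveI : (MulSemiringAction.toRingAut Γ L).ker.FiniteIndex := Subgroup.finiteIndex_of_le hle
  haveI : Finite (Γ ⧸ (MulSemiringAction.toRingAut Γ L).ker) :=
    Subgroup.finite_quotient_of_finiteIndex
  haveI : Finite (MulSemiringAction.toRingAut Γ L).range :=
    Finite.of_equiv _ (QuotientGroup.quotientKerEquivRange _).toEquiv
  have hle' : img L B ≤ (MulSemiringAction.toRingAut Γ L).range := by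
    rintro _ ⟨b, -, rfl⟩
    exact ⟨b, rfl⟩
  exact Finite.of_injective _ (Subgroup.inclusion_injective hle')

/-- `img L B` is a Galois group of `L` over `F` as soon as `F` maps onto the fixed field of `B`. -/
theorem isGaloisGroup_img (B : Subgroup Γ) (F : Type*) [Field F] [Algebra F L]
    (hfix : ∀ b ∈ B, ∀ a : F, b • algebraMap F L a = algebraMap F L a)
    (hinv : ∀ y : L, (∀ b ∈ B, b • y = y) → ∃ a : F, algebraMap F L a = y) :
    IsGaloisGroup (img L B) F L where
  faithful := faithful_img B
  commutes := ⟨fun g a y => by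
    obtain ⟨b, hb, h⟩ := exists_of_img g
    rw [h, h, Algebra.smul_def, Algebra.smul_def, smul_mul', hfix b hb]⟩
  isInvariant := ⟨fun y hy => hinv y fun b hb => hy (toImg b hb)⟩

end Fermat.Agent.S48.BB.V
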