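/-
S48, block BB, sub-block V (vertical input).  Architect and owner of this file: helper76.

ABSTRACT FILE.  `Γ` acts on the field `L` through a finite quotient, `V` is a valuation subring.

* `exists_mem_smul_iff` : two valuation subrings with the same trace on the fixed field of `B` are
  conjugate under `B` (from `Nodal.SplitOfFree.exists_comap_eq`).
* `stable_of_normalClosure` : **the decomposition group argument**.  If `T` stabilises `V`, `B`
  normalises `⟨T⟩` modulo the kernel, the trace of `V` on the fixed field of `B` is stable under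
  `Γ`, and `Γ` is the normal closure of `T`, then `Γ` stabilises `V`.
-/
import Fermat.Agent.S48.BB.V.Abs.Group
import Fermat.Agent.Nodal.SplitOfFree.Trans

set_option autoImplicit false

namespace Fermat.Agent.S48.BB.V

variable {Γ L : Type*} [Group Γ] [Field L] [MulSemiringAction Γ L]

/-- Conjugacy of the extensions of a valuation ring, for a group acting through a finite
quotient. -/
theorem exists_mem_smul_iff (B N' : Subgroup Γ) [N'.FiniteIndex]
    (hN : ∀ n ∈ N', ∀ y : L, n • y = y) (V W : ValuationSubring L)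
    (h : ∀ y : L, (∀ b ∈ B, b • y = y) → (y ∈ W ↔ y ∈ V)) :
    ∃ b ∈ B, ∀ y : L, y ∈ W ↔ b • y ∈ V := by
  have : Finite (img L B) := finite_img B N' hN
  have hG : IsGaloisGroup (img L B) (FixedPoints.subfield (img L B) L) L := inferInstance
  have : IsGalois (FixedPoints.subfield (img L B) L) L := IsGaloisGroup.isGalois (img L B) _ _
  have : FiniteDimensional (FixedPoints.subfield (img L B) L) L :=
    IsGaloisGroup.finiteDimensional (img L B) _ _
  have hW : W.comap (algebraMap (FixedPoints.subfield (img L B) L) L) =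
      V.comap (algebraMap (FixedPoints.subfield (img L B) L) L) := by
    ext a
    rw [ValuationSubring.mem_comap, ValuationSubring.mem_comap]
    exact h _ fun b hb => a.2 (toImg b hb)
  obtain ⟨γ, hγ⟩ := Nodal.SplitOfFree.exists_comap_eq
    (V.comap (algebraMap (FixedPoints.subfield (img L B) L) L)) V W rfl hW
  obtain ⟨g, rfl⟩ := (IsGaloisGroup.mulEquivAlgEquiv (img L B)
    (FixedPoints.subfield (img L B) L) L).surjective γ
  obtain ⟨b, hb, hbg⟩ := exists_of_img g
  refine ⟨b, hb, fun y => ?_⟩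
  rw [hγ, ValuationSubring.mem_comap, ← hbg]
  rfl

/-- The stabiliser of a valuation subring. -/
def stab (Γ : Type*) {L : Type*} [Group Γ] [Field L] [MulSemiringAction Γ L]
    (V : ValuationSubring L) : Subgroup Γ where
  carrier := {σ | ∀ y : L, σ • y ∈ V ↔ y ∈ V}
  mul_mem' := by
    intro a b ha hb y
    rw [mul_smul, ha, hb]
  one_mem' := by
    intro y
    rw [one_smul]
  inv_mem' := by
    intro a ha y
    rw [← ha (a⁻¹ • y), smul_inv_smul]

theorem mem_stab {V : ValuationSubring L} {σ : Γ} : σ ∈ stab Γ V ↔ ∀ y : L, σ • y ∈ V ↔ y ∈ V :=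
  Iff.rfl

/-- **The decomposition group argument.** -/
theorem stable_of_normalClosure (V : ValuationSubring L) (T : Γ) (B N' : Subgroup Γ)
    [N'.FiniteIndex] (hN : ∀ n ∈ N', ∀ y : L, n • y = y)
    (hT : ∀ y : L, T • y ∈ V ↔ y ∈ V)
    (hB : ∀ b ∈ B, ∃ k : ℤ, ∃ n ∈ N', b * T * b⁻¹ = T ^ k * n)
    (hgen : Subgroup.normalClosure {T} = ⊤)
    (huniq : ∀ σ : Γ, ∀ y : L, (∀ b ∈ B, b • y = y) → (σ • y ∈ V ↔ y ∈ V)) :
    ∀ σ : Γ, ∀ y : L, σ • y ∈ V ↔ y ∈ V := by
  have hTD : T ∈ stab Γ V := hT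
  have hND : N' ≤ stab Γ V := fun n hn y => by rw [hN n hn]
  -- every element is `d * b`
  have hdb : ∀ σ : Γ, ∃ d ∈ stab Γ V, ∃ b ∈ B, σ = d * b := by
    intro σ
    obtain ⟨b, hb, hbσ⟩ := exists_mem_smul_iff B N' hN V
      (V.comap (MulSemiringAction.toRingHom Γ L σ)) (fun y hy => huniq σ y hy)
    refine ⟨σ * b⁻¹, fun y => ?_, b, hb, by group⟩
    have h1 := hbσ (b⁻¹ • y)
    rw [smul_inv_smul] at h1
    rw [← h1, mul_smul]
    rfl
  have hconj : ∀ σ : Γ, σ * T * σ⁻¹ ∈ stab Γ V := by
    intro σ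
    obtain ⟨d, hd, b, hb, rfl⟩ := hdb σ
    obtain ⟨k, n, hn, hk⟩ := hB b hb
    have h1 : d * b * T * (d * b)⁻¹ = d * (b * T * b⁻¹) * d⁻¹ := by group
    rw [h1, hk]
    exact mul_mem (mul_mem hd (mul_mem (zpow_mem hTD k) (hND hn))) (inv_mem hd)
  have hle : Subgroup.normalClosure {T} ≤ stab Γ V := by
    rw [Subgroup.normalClosure, Subgroup.closure_le]
    intro x hx
    rw [Group.mem_conjugatesOfSet_iff] at hx
    obtain ⟨a, ha, hax⟩ := hx
    rw [Set.mem_singleton_iff] at ha
    subst ha
    obtain ⟨c, hc⟩ := isConj_iff.mp hax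
    rw [← hc]
    exact hconj c
  intro σ
  have : σ ∈ stab Γ V := hle (by rw [hgen]; trivial)
  exact this

end Fermat.Agent.S48.BB.V
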