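/-
S48 block BB, sub-block V (architect helper76).  TASK BB-V-A2 (proofs: helper185).
Integrality of valuation rings over their traces on subfields: Galois stable case, transitivity.
Mathlib only.
-/
import Mathlib

set_option autoImplicit false

namespace Fermat.Agent.S48.BB.V

open Polynomial

/-- A valuation ring stable under a finite Galois group is integral over its trace on the base
field. -/
theorem isIntegralElem_of_stable {F L : Type*} [Field F] [Field L] [Algebra F L]
    (Q : Type*) [Group Q] [Finite Q] [MulSemiringAction Q L] [IsGaloisGroup Q F L]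
    (V : ValuationSubring L) (hst : ∀ g : Q, ∀ y ∈ V, g • y ∈ V) (y : L) (hy : y ∈ V) :
    ((algebraMap F L).comp (V.comap (algebraMap F L)).subtype).IsIntegralElem y := by
  cases nonempty_fintype Q
  haveI : Algebra.IsInvariant F L Q := IsGaloisGroup.isInvariant
  have h1 : MulSemiringAction.charpoly Q y ∈ lifts V.subtype := by
    rw [MulSemiringAction.charpoly_eq]
    refine prod_mem fun g _ => ?_
    rw [mem_lifts]
    exact ⟨X - C (⟨g • y, hst g y hy⟩ : V), by simp⟩
  have h2 : MulSemiringAction.charpoly Q y ∈ lifts (algebraMap F L) :=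
    Algebra.IsInvariant.charpoly_mem_lifts F L Q y
  have h3 : MulSemiringAction.charpoly Q y ∈
      lifts ((algebraMap F L).comp (V.comap (algebraMap F L)).subtype) := by
    rw [lifts_iff_coeff_lifts] at h1 h2 ⊢
    intro n
    obtain ⟨a, ha⟩ := h2 n
    obtain ⟨v, hv⟩ := h1 n
    refine ⟨⟨a, ?_⟩, ha⟩
    rw [ValuationSubring.mem_comap, ha, ← hv]
    exact v.2
  obtain ⟨p, hp1, -, hp2⟩ :=
    lifts_and_natDegree_eq_and_monic h3 (MulSemiringAction.monic_charpoly Q y)
  exact ⟨p, hp2, by rw [← eval_map, hp1, MulSemiringAction.eval_charpoly]⟩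

/-- a root of a monic polynomial whose coefficients are integral is integral -/
private theorem isIntegral_of_monic_of_coeff {A L : Type*} [CommRing A] [Field L] [Algebra A L]
    (p : L[X]) (hp : p.Monic) (hc : ∀ i, IsIntegral A (p.coeff i)) {y : L} (hy : p.eval y = 0) :
    IsIntegral A y := by
  have hl : p ∈ lifts (algebraMap (integralClosure A L) L) :=
    (lifts_iff_coeff_lifts p).2 fun i => ⟨⟨p.coeff i, hc i⟩, rfl⟩
  obtain ⟨r, hr, -, hrm⟩ := lifts_and_natDegree_eq_and_monic hl hp
  have h1 : IsIntegral (integralClosure A L) y := ⟨r, hrm, by rw [← eval_map, hr]; exact hy⟩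
  exact isIntegral_trans y h1

/-- Transitivity of integrality of valuation rings. -/
theorem isIntegralElem_trans {E F L : Type*} [Field E] [Field F] [Field L] [Algebra E F]
    [Algebra F L] [Algebra E L] [IsScalarTower E F L] (V : ValuationSubring L)
    (h1 : ∀ y ∈ V, ((algebraMap F L).comp (V.comap (algebraMap F L)).subtype).IsIntegralElem y)
    (h2 : ∀ a ∈ V.comap (algebraMap F L), ((algebraMap E F).comp
      ((V.comap (algebraMap F L)).comap (algebraMap E F)).subtype).IsIntegralElem a)
    (y : L) (hy : y ∈ V) :
    ((algebraMap E L).comp (V.comap (algebraMap E L)).subtype).IsIntegralElem y := by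
  letI : Algebra (V.comap (algebraMap E L)) L :=
    ((algebraMap E L).comp (V.comap (algebraMap E L)).subtype).toAlgebra
  show IsIntegral (V.comap (algebraMap E L)) y
  obtain ⟨p, hpm, hp⟩ := h1 y hy
  refine isIntegral_of_monic_of_coeff
    (p.map ((algebraMap F L).comp (V.comap (algebraMap F L)).subtype)) (hpm.map _) (fun i => ?_)
    (by rw [eval_map]; exact hp)
  rw [coeff_map]
  obtain ⟨r, hrm, hr⟩ := h2 (p.coeff i).1 (p.coeff i).2
  have hle : (V.comap (algebraMap F L)).comap (algebraMap E F) ≤ V.comap (algebraMap E L) := by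
    intro a ha
    rw [ValuationSubring.mem_comap, ValuationSubring.mem_comap] at ha
    rw [ValuationSubring.mem_comap, IsScalarTower.algebraMap_apply E F L]
    exact ha
  refine ⟨r.map (ValuationSubring.inclusion _ _ hle), hrm.map _, ?_⟩
  rw [eval₂_map]
  have h3 := congrArg (algebraMap F L) hr
  rw [hom_eval₂, map_zero] at h3
  have h4 : (algebraMap (V.comap (algebraMap E L)) L).comp (ValuationSubring.inclusion _ _ hle) =
      (algebraMap F L).comp ((algebraMap E F).comp
        ((V.comap (algebraMap F L)).comap (algebraMap E F)).subtype) := by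
    ext a
    exact IsScalarTower.algebraMap_apply E F L a.1
  rw [h4]
  exact h3

end Fermat.Agent.S48.BB.V
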