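/-
S48 BB-V, leaf B3 (architect helper76, proof helper189): pull back of a `MulSemiringAction` along
an injective ring homomorphism with stable range.
-/
import Mathlib

set_option autoImplicit false

noncomputable section

namespace Fermat.Agent.S48.BB.V

/-- Pull back of an action along an injective ring homomorphism with stable range. -/
@[instance_reducible] def pullAction {Γ L F : Type*} [Group Γ] [Field L] [MulSemiringAction Γ L] [Field F]
    (e : F →+* L) (h : ∀ (γ : Γ) (f : F), ∃ f' : F, e f' = γ • e f) : MulSemiringAction Γ F where
  smul γ f := (h γ f).choose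
  one_smul f := e.injective (by
    change e (h 1 f).choose = e f
    rw [(h 1 f).choose_spec, one_smul])
  mul_smul γ δ f := e.injective (by
    change e (h (γ * δ) f).choose = e (h γ (h δ f).choose).choose
    rw [(h (γ * δ) f).choose_spec, (h γ (h δ f).choose).choose_spec, (h δ f).choose_spec,
      mul_smul])
  smul_zero γ := e.injective (by
    change e (h γ 0).choose = e 0
    rw [(h γ 0).choose_spec, map_zero, smul_zero])
  smul_add γ f g := e.injective (by
    change e (h γ (f + g)).choose = e ((h γ f).choose + (h γ g).choose)
    rw [(h γ (f + g)).choose_spec, map_add, map_add, (h γ f).choose_spec, (h γ g).choose_spec,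
      smul_add])
  smul_one γ := e.injective (by
    change e (h γ 1).choose = e 1
    rw [(h γ 1).choose_spec, map_one, smul_one])
  smul_mul γ f g := e.injective (by
    change e (h γ (f * g)).choose = e ((h γ f).choose * (h γ g).choose)
    rw [(h γ (f * g)).choose_spec, map_mul, map_mul, (h γ f).choose_spec, (h γ g).choose_spec,
      smul_mul'])

theorem map_pullAction_smul {Γ L F : Type*} [Group Γ] [Field L] [MulSemiringAction Γ L] [Field F]
    (e : F →+* L) (h : ∀ (γ : Γ) (f : F), ∃ f' : F, e f' = γ • e f) (γ : Γ) (f : F) :
    e ((pullAction e h).toSMul.smul γ f) = γ • e f :=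
  (h γ f).choose_spec

/-- convenient restatement of `map_pullAction_smul` -/
theorem map_pullAction_smul' {Γ L F : Type*} [Group Γ] [Field L] [MulSemiringAction Γ L] [Field F]
    (e : F →+* L) (h : ∀ (γ : Γ) (f : F), ∃ f' : F, e f' = γ • e f) (γ : Γ) (f : F) :
    letI := pullAction e h
    e (γ • f) = γ • e f :=
  (h γ f).choose_spec

end Fermat.Agent.S48.BB.V

end
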