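/-
S48 BB-V, abstract leaves A3 (helper285; architect helper76): Dedekind independence of the residue
characters gives an element of `V` whose trace has nonzero residue; nondegeneracy of the trace
modulo `ϖ` in a tower.  Mathlib only.
-/
import Mathlib

set_option autoImplicit false

namespace Fermat.Agent.S48.BB.V

/-- The trace as the sum over a Galois group. -/
theorem algebraMap_trace_eq_sum_smul {F L : Type*} [Field F] [Field L] [Algebra F L]
    (Q : Type*) [Group Q] [Fintype Q] [MulSemiringAction Q L] [IsGaloisGroup Q F L] (y : L) :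
    algebraMap F L (Algebra.trace F L y) = ∑ g : Q, g • y := by
  have : IsGalois F L := IsGaloisGroup.isGalois Q F L
  have : FiniteDimensional F L := IsGaloisGroup.finiteDimensional Q F L
  rw [trace_eq_sum_automorphisms]
  exact (Fintype.sum_equiv (IsGaloisGroup.mulEquivAlgEquiv Q F L).toEquiv _ _ fun g => rfl).symm

/-- Dedekind independence of the residue characters: if the
inertia group is trivial there is an element of `V` whose trace has nonzero residue. -/
theorem exists_trace_res_ne_zero {F L : Type*} [Field F] [Field L] [Algebra F L]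
    (Q : Type*) [Group Q] [Finite Q] [MulSemiringAction Q L] [IsGaloisGroup Q F L]
    (V : ValuationSubring L) (hst : ∀ g : Q, ∀ y ∈ V, g • y ∈ V)
    {R : Type*} [CommRing R] [IsDomain R] (res : V →+* R)
    (hsep : ∀ g : Q, g ≠ 1 → ∃ y : V, res ⟨g • (y : L), hst g y y.2⟩ ≠ res y) :
    ∃ y : V, ∃ h : algebraMap F L (Algebra.trace F L (y : L)) ∈ V, res ⟨_, h⟩ ≠ 0 := by
  classical
  have := Fintype.ofFinite Q
  -- the residue characters
  let chi : Q → (V →* R) := fun g =>
    { toFun := fun y => res ⟨g • (y : L), hst g y y.2⟩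
      map_one' := by
        have : (⟨g • ((1 : V) : L), hst g _ (1 : V).2⟩ : V) = 1 := Subtype.ext (smul_one g)
        rw [this, map_one]
      map_mul' := fun y z => by
        have : (⟨g • ((y * z : V) : L), hst g _ (y * z).2⟩ : V) =
            ⟨g • (y : L), hst g y y.2⟩ * ⟨g • (z : L), hst g z z.2⟩ :=
          Subtype.ext (smul_mul' g (y : L) (z : L))
        rw [this, map_mul] }
  have hchi : ∀ (g : Q) (y : V), chi g y = res ⟨g • (y : L), hst g y y.2⟩ := fun _ _ => rfl
  have hinj : Function.Injective chi := by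
    intro g h hgh
    by_contra hne
    have hne' : g * h⁻¹ ≠ 1 := fun e => hne (mul_inv_eq_one.1 e)
    obtain ⟨y, hy⟩ := hsep _ hne'
    apply hy
    have h1 := DFunLike.congr_fun hgh (⟨h⁻¹ • (y : L), hst h⁻¹ y y.2⟩ : V)
    rw [hchi, hchi] at h1
    have e1 : (⟨g • h⁻¹ • (y : L), hst g _ (hst h⁻¹ y y.2)⟩ : V) =
        ⟨(g * h⁻¹) • (y : L), hst _ y y.2⟩ := Subtype.ext (smul_smul g h⁻¹ (y : L))
    have e2 : (⟨h • h⁻¹ • (y : L), hst h _ (hst h⁻¹ y y.2)⟩ : V) = y :=
      Subtype.ext (smul_inv_smul h (y : L))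
    rw [← e1]
    refine h1.trans ?_
    rw [e2]
  have hli : LinearIndependent R (fun g : Q => (chi g : V → R)) :=
    (linearIndependent_monoidHom V R).comp chi hinj
  have hex : ∃ y : V, ∑ g : Q, chi g y ≠ 0 := by
    by_contra hcon
    push Not at hcon
    have h0 : ∑ g : Q, (1 : R) • (chi g : V → R) = 0 := by
      funext y
      simpa using hcon y
    have := Fintype.linearIndependent_iff.1 hli (fun _ => 1) h0 1
    exact one_ne_zero this
  obtain ⟨y, hy⟩ := hex
  have hsum : algebraMap F L (Algebra.trace F L (y : L)) = ∑ g : Q, g • (y : L) :=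
    algebraMap_trace_eq_sum_smul Q (y : L)
  have hmem : algebraMap F L (Algebra.trace F L (y : L)) ∈ V := by
    rw [hsum]
    exact sum_mem fun g _ => hst g y y.2
  refine ⟨y, hmem, ?_⟩
  have e : (⟨_, hmem⟩ : V) = ∑ g : Q, (⟨g • (y : L), hst g y y.2⟩ : V) := by
    apply Subtype.ext
    refine hsum.trans ?_
    have h2 := map_sum V.subtype (fun g : Q => (⟨g • (y : L), hst g y y.2⟩ : V)) Finset.univ
    exact h2.symm
  rw [e, map_sum]
  exact hy

/-- Nondegeneracy of the trace modulo `ϖ` in a tower. -/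
theorem exists_trace_notMem_tower {E F₀ F : Type*} [Field E] [Field F₀] [Field F] [Algebra E F₀]
    [Algebra F₀ F] [Algebra E F] [IsScalarTower E F₀ F] [FiniteDimensional E F₀]
    [FiniteDimensional F₀ F] (V : ValuationSubring F) (ϖ : F)
    (y₁ : F₀) (hy₁ : algebraMap F₀ F y₁ ∈ V)
    (hy₁' : ¬ ∃ w ∈ V, algebraMap E F (Algebra.trace E F₀ y₁) = ϖ * w)
    (y₂ : F) (hy₂ : y₂ ∈ V) (h0 : Algebra.trace F₀ F y₂ ≠ 0)
    (hu : (algebraMap F₀ F (Algebra.trace F₀ F y₂))⁻¹ ∈ V) :
    ∃ y ∈ V, ¬ ∃ w ∈ V, algebraMap E F (Algebra.trace E F y) = ϖ * w := by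
  set u := Algebra.trace F₀ F y₂ with hu_def
  refine ⟨(y₁ / u) • y₂, ?_, ?_⟩
  · rw [Algebra.smul_def, map_div₀, div_eq_mul_inv]
    exact V.mul_mem _ _ (V.mul_mem _ _ hy₁ hu) hy₂
  · have h1 : Algebra.trace F₀ F ((y₁ / u) • y₂) = y₁ := by
      rw [map_smul, ← hu_def, smul_eq_mul, div_mul_cancel₀ _ h0]
    rw [← Algebra.trace_trace (S := F₀), h1]
    exact hy₁'

end Fermat.Agent.S48.BB.V
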