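/-
S48 BB-V-A1 (helper161): uniqueness of the extension of a valuation ring from integrality and
"rank one".
-/
import Mathlib

set_option autoImplicit false

namespace Fermat.Agent.S48.BB.V

open Polynomial

/-- Uniqueness of the extension of a valuation ring from integrality + "rank one". -/
theorem eq_of_integral {E F : Type*} [Field E] [Field F] [Algebra E F] (V W : ValuationSubring F)
    (hint : ∀ y ∈ V, ((algebraMap E F).comp (V.comap (algebraMap E F)).subtype).IsIntegralElem y)
    (ϖ : F) (hϖ : ϖ⁻¹ ∉ W) (hunif : ∀ y ∈ V, y⁻¹ ∉ V → ∃ z ∈ V, y = ϖ * z)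
    (hWV : V.comap (algebraMap E F) ≤ W.comap (algebraMap E F)) : W = V := by
  have hVW : ∀ y ∈ V, y ∈ W := by
    intro y hy
    obtain ⟨P, hP, hPy⟩ := hint y hy
    let g : V.comap (algebraMap E F) →+* W :=
      { toFun := fun c => ⟨algebraMap E F (c : E), hWV c.2⟩
        map_one' := Subtype.ext (map_one _)
        map_mul' := fun a b => Subtype.ext (map_mul _ _ _)
        map_zero' := Subtype.ext (map_zero _)
        map_add' := fun a b => Subtype.ext (map_add _ _ _) }
    have hint' : IsIntegral W y := by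
      refine ⟨P.map g, hP.map g, ?_⟩
      rw [eval₂_map]
      exact hPy
    obtain ⟨w, hw⟩ := IsIntegrallyClosed.isIntegral_iff.1 hint'
    rw [← hw]
    exact w.2
  apply le_antisymm
  · intro y hy
    by_contra hyV
    have hy0 : y ≠ 0 := by
      rintro rfl
      exact hyV V.zero_mem
    have hinv : y⁻¹ ∈ V := (V.mem_or_inv_mem y).resolve_left hyV
    obtain ⟨z, hz, hyz⟩ := hunif y⁻¹ hinv (by rwa [inv_inv])
    have hϖ0 : ϖ ≠ 0 := by
      rintro rfl
      rw [zero_mul] at hyz
      exact inv_ne_zero hy0 hyz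
    apply hϖ
    have : ϖ⁻¹ = y * z := by
      have h1 : y * (ϖ * z) = 1 := by rw [← hyz, mul_inv_cancel₀ hy0]
      field_simp
      linear_combination -h1
    rw [this]
    exact W.mul_mem _ _ hy (hVW z hz)
  · exact hVW

end Fermat.Agent.S48.BB.V
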