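/-
S48, block BB, sub-block V (vertical input).  Architect and owner of this file: helper76.

ABSTRACT MAIN THEOREM.  Tower of fields `E₁ ⊆ F₀ ⊆ F ⊆ L`; a group `Γ` acts on `L` through a finite
quotient; `F₀`, `F` are the fixed fields of `B ⊇ H`, `H` normal in `B`; `V` is a valuation ring of `L`
with uniformiser `ϖ ∈ E₁`, stable under `T`; `Γ` is the normal closure of `T` and `B` normalises `⟨T⟩`
modulo the kernel.  If `V ∩ F₀` is integral over `V ∩ E₁` with nondegenerate trace form modulo `ϖ`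
and if the elements of `B \ H` act nontrivially on the residues of `V ∩ F`, then `V` is stable
under `Γ`, `V ∩ F` is integral over `V ∩ E₁` and contains an element of trace one.
-/
import Fermat.Agent.S48.BB.V.Abs.Decomp
import Fermat.Agent.S48.BB.V.Abs.Unique
import Fermat.Agent.S48.BB.V.Abs.Integral
import Fermat.Agent.S48.BB.V.Abs.Trace
import Fermat.Agent.S48.BB.V.Abs.Pull
import Fermat.Agent.S18.Vert.TraceAbs

set_option autoImplicit false
set_option linter.style.haveILetI false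

namespace Fermat.Agent.S48.BB.V

section Unif

variable {E F L : Type*} [Field E] [Field F] [Field L] [Algebra E F] [Algebra F L] [Algebra E L]
  [IsScalarTower E F L]

/-- The uniformiser property descends to a subfield containing the uniformiser. -/
theorem unif_comap (V : ValuationSubring L) (ϖ : E) (hϖ : (algebraMap E L ϖ)⁻¹ ∉ V)
    (hunif : ∀ y ∈ V, y⁻¹ ∉ V → ∃ z ∈ V, y = algebraMap E L ϖ * z) :
    ∀ y ∈ V.comap (algebraMap F L), y⁻¹ ∉ V.comap (algebraMap F L) →
      ∃ z ∈ V.comap (algebraMap F L), y = algebraMap E F ϖ * z := by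
  intro y hy hy'
  have hϖ0 : ϖ ≠ 0 := by
    rintro rfl
    apply hϖ
    rw [map_zero, inv_zero]
    exact V.zero_mem
  have hϖF : algebraMap E F ϖ ≠ 0 := (map_ne_zero _).mpr hϖ0
  have hϖL : algebraMap E L ϖ ≠ 0 := (map_ne_zero _).mpr hϖ0
  obtain ⟨z, hz, hyz⟩ := hunif (algebraMap F L y) hy (by
    rw [← map_inv₀]
    exact hy')
  refine ⟨(algebraMap E F ϖ)⁻¹ * y, ?_, by rw [mul_inv_cancel_left₀ hϖF]⟩
  rw [ValuationSubring.mem_comap, map_mul, map_inv₀, ← IsScalarTower.algebraMap_apply, hyz,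
    inv_mul_cancel_left₀ hϖL]
  exact hz

end Unif

theorem abstract_main {E₁ F₀ F L Γ R : Type*} [Field E₁] [Field F₀] [Field F] [Field L]
    [Algebra E₁ F₀] [Algebra F₀ F] [Algebra E₁ F] [IsScalarTower E₁ F₀ F]
    [Algebra F L] [Algebra F₀ L] [IsScalarTower F₀ F L] [Algebra E₁ L] [IsScalarTower E₁ F L]
    [IsScalarTower E₁ F₀ L] [FiniteDimensional E₁ F₀]
    [Group Γ] [MulSemiringAction Γ L]
    (V : ValuationSubring L) (T : Γ) (B H N' : Subgroup Γ) [N'.FiniteIndex]
    (hN : ∀ n ∈ N', ∀ y : L, n • y = y)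
    (hnorm : ∀ b ∈ B, ∀ h ∈ H, b⁻¹ * h * b ∈ H)
    (hT : ∀ y : L, T • y ∈ V ↔ y ∈ V)
    (hBT : ∀ b ∈ B, ∃ k : ℤ, ∃ n ∈ N', b * T * b⁻¹ = T ^ k * n)
    (hgen : Subgroup.normalClosure {T} = ⊤)
    (hfixE : ∀ (σ : Γ) (e : E₁), σ • algebraMap E₁ L e = algebraMap E₁ L e)
    (hfixB : ∀ b ∈ B, ∀ a : F₀, b • algebraMap F₀ L a = algebraMap F₀ L a)
    (hinvB : ∀ y : L, (∀ b ∈ B, b • y = y) → ∃ a : F₀, algebraMap F₀ L a = y)
    (hfixH : ∀ h ∈ H, ∀ f : F, h • algebraMap F L f = algebraMap F L f)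
    (hinvH : ∀ y : L, (∀ h ∈ H, h • y = y) → ∃ f : F, algebraMap F L f = y)
    (ϖ : E₁) (hϖ : (algebraMap E₁ L ϖ)⁻¹ ∉ V)
    (hunif : ∀ y ∈ V, y⁻¹ ∉ V → ∃ z ∈ V, y = algebraMap E₁ L ϖ * z)
    (hint₀ : ∀ a ∈ V.comap (algebraMap F₀ L), ((algebraMap E₁ F₀).comp
      ((V.comap (algebraMap F₀ L)).comap (algebraMap E₁ F₀)).subtype).IsIntegralElem a)
    (y₁ : F₀) (hy₁ : algebraMap F₀ L y₁ ∈ V)
    (hy₁' : ¬ ∃ w ∈ V.comap (algebraMap F₀ L),
      algebraMap E₁ F₀ (Algebra.trace E₁ F₀ y₁) = algebraMap E₁ F₀ ϖ * w)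
    [CommRing R] [IsDomain R] (res : V →+* R)
    (hres : ∀ y : V, res y ≠ 0 → (y : L)⁻¹ ∈ V)
    (hsep : ∀ b ∈ B, b ∉ H → ∃ f : F, ∃ (h1 : algebraMap F L f ∈ V)
      (h2 : b • algebraMap F L f ∈ V), res ⟨_, h2⟩ ≠ res ⟨_, h1⟩) :
    (∀ σ : Γ, ∀ y : L, σ • y ∈ V ↔ y ∈ V) ∧ FiniteDimensional E₁ F ∧
    (∀ f ∈ V.comap (algebraMap F L), ((algebraMap E₁ F).comp
      ((V.comap (algebraMap F L)).comap (algebraMap E₁ F)).subtype).IsIntegralElem f) ∧
    ∃ y₀ ∈ V.comap (algebraMap F L), Algebra.trace E₁ F y₀ = 1 := by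
  have hϖ0 : ϖ ≠ 0 := by
    rintro rfl
    apply hϖ
    rw [map_zero, inv_zero]
    exact V.zero_mem
  -- Step 1: uniqueness on the fixed field of `B`
  have huniq : ∀ σ : Γ, ∀ y : L, (∀ b ∈ B, b • y = y) → (σ • y ∈ V ↔ y ∈ V) := by
    intro σ y hy
    obtain ⟨a, rfl⟩ := hinvB y hy
    have h1 : ((V.comap (MulSemiringAction.toRingHom Γ L σ)).comap (algebraMap F₀ L)) =
        V.comap (algebraMap F₀ L) := by
      refine eq_of_integral (E := E₁) _ _ hint₀ (algebraMap E₁ F₀ ϖ) ?_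
        (unif_comap V ϖ hϖ hunif) ?_
      · rw [ValuationSubring.mem_comap, ValuationSubring.mem_comap, map_inv₀,
          ← IsScalarTower.algebraMap_apply, map_inv₀]
        show ¬ (σ • algebraMap E₁ L ϖ)⁻¹ ∈ V
        rw [hfixE]
        exact hϖ
      · intro e he
        rw [ValuationSubring.mem_comap, ValuationSubring.mem_comap,
          ← IsScalarTower.algebraMap_apply] at he
        rw [ValuationSubring.mem_comap, ValuationSubring.mem_comap, ValuationSubring.mem_comap,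
          ← IsScalarTower.algebraMap_apply]
        show σ • algebraMap E₁ L e ∈ V
        rw [hfixE]
        exact he
    have h2 : a ∈ ((V.comap (MulSemiringAction.toRingHom Γ L σ)).comap (algebraMap F₀ L)) ↔
        a ∈ V.comap (algebraMap F₀ L) := by rw [h1]
    exact h2
  -- Step 2: stability
  have hstable := stable_of_normalClosure V T B N' hN hT hBT hgen huniq
  -- Step 3: the action of `B` on `F`
  have hpull : ∀ (b : B) (f : F), ∃ f' : F, algebraMap F L f' = b • algebraMap F L f := by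
    intro b f
    refine hinvH _ fun h hh => ?_
    have h1 := hfixH _ (hnorm b b.2 h hh) f
    rw [mul_smul, mul_smul] at h1
    calc h • b • algebraMap F L f = (b : Γ) • (b : Γ)⁻¹ • h • (b : Γ) • algebraMap F L f :=
          (smul_inv_smul (b : Γ) _).symm
      _ = b • algebraMap F L f := by rw [h1]; rfl
  letI : MulSemiringAction B F := pullAction (algebraMap F L) hpull
  have hsm : ∀ (b : B) (f : F), algebraMap F L (b • f) = (b : Γ) • algebraMap F L f :=
    fun b f => map_pullAction_smul (algebraMap F L) hpull b f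
  have hinj : Function.Injective (algebraMap F L) := (algebraMap F L).injective
  -- Step 4: the Galois group of `F / F₀`
  haveI : Finite (img F (⊤ : Subgroup B)) :=
    finite_img ⊤ (N'.subgroupOf B) (fun n hn f => hinj (by
      rw [hsm]
      exact hN _ (Subgroup.mem_subgroupOf.mp hn) _))
  haveI : IsGaloisGroup (img F (⊤ : Subgroup B)) F₀ F :=
    isGaloisGroup_img ⊤ F₀
      (fun b _ a => hinj (by
        rw [hsm, ← IsScalarTower.algebraMap_apply]
        exact hfixB _ b.2 a))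
      (fun y hy => by
        obtain ⟨a, ha⟩ := hinvB (algebraMap F L y) (fun b hb => by
          have := hy ⟨b, hb⟩ trivial
          rw [← hsm ⟨b, hb⟩, this])
        exact ⟨a, hinj (by rw [← IsScalarTower.algebraMap_apply, ha])⟩)
  haveI : FiniteDimensional F₀ F := IsGaloisGroup.finiteDimensional (img F (⊤ : Subgroup B)) F₀ F
  haveI : FiniteDimensional E₁ F := FiniteDimensional.trans E₁ F₀ F
  -- Step 5: stability of `V ∩ F`
  have hst : ∀ g : img F (⊤ : Subgroup B), ∀ y ∈ V.comap (algebraMap F L),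
      g • y ∈ V.comap (algebraMap F L) := by
    intro g y hy
    obtain ⟨b, -, hb⟩ := exists_of_img g
    rw [hb, ValuationSubring.mem_comap, hsm, hstable]
    exact hy
  -- Step 6: integrality
  have hcomap : (V.comap (algebraMap F L)).comap (algebraMap F₀ F) = V.comap (algebraMap F₀ L) := by
    ext a
    rw [ValuationSubring.mem_comap, ValuationSubring.mem_comap, ValuationSubring.mem_comap,
      ← IsScalarTower.algebraMap_apply]
  have hint : ∀ f ∈ V.comap (algebraMap F L), ((algebraMap E₁ F).comp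
      ((V.comap (algebraMap F L)).comap (algebraMap E₁ F)).subtype).IsIntegralElem f := by
    refine isIntegralElem_trans (E := E₁) (F := F₀) (V.comap (algebraMap F L))
      (isIntegralElem_of_stable (img F (⊤ : Subgroup B)) _ hst) ?_
    rw [hcomap]
    exact hint₀
  refine ⟨hstable, inferInstance, hint, ?_⟩
  -- Step 7: the trace of `F / F₀`
  let resF : V.comap (algebraMap F L) →+* R :=
    res.comp ((algebraMap F L).restrict (V.comap (algebraMap F L)) V fun _ hx => hx)
  have hresF : ∀ (f : F) (hf : f ∈ V.comap (algebraMap F L)),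
      resF ⟨f, hf⟩ = res ⟨algebraMap F L f, hf⟩ := fun _ _ => rfl
  obtain ⟨y₂, hy₂, hy₂'⟩ := exists_trace_res_ne_zero (F := F₀) (img F (⊤ : Subgroup B))
    (V.comap (algebraMap F L)) hst resF (by
      intro g hg
      obtain ⟨b, -, hb⟩ := exists_of_img g
      have hbH : (b : Γ) ∉ H := by
        intro hbH
        apply hg
        refine Subtype.ext (RingEquiv.ext fun f => ?_)
        have h1 : g • f = f := by
          rw [hb]
          exact hinj (by rw [hsm, hfixH _ hbH])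
        exact h1
      obtain ⟨f, h1, h2, h3⟩ := hsep b b.2 hbH
      refine ⟨⟨f, h1⟩, ?_⟩
      rw [hresF, hresF]
      convert h3 using 3
      rw [hb, hsm])
  rw [hresF] at hy₂'
  have h0 : Algebra.trace F₀ F (y₂ : F) ≠ 0 := by
    intro h0
    apply hy₂'
    have : (⟨algebraMap F L (algebraMap F₀ F (Algebra.trace F₀ F (y₂ : F))), hy₂⟩ : V) = 0 :=
      Subtype.ext (by
        show algebraMap F L (algebraMap F₀ F (Algebra.trace F₀ F (y₂ : F))) = 0
        rw [h0, map_zero, map_zero])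
    rw [this, map_zero]
  have hu : (algebraMap F₀ F (Algebra.trace F₀ F (y₂ : F)))⁻¹ ∈ V.comap (algebraMap F L) := by
    rw [ValuationSubring.mem_comap, map_inv₀]
    exact hres _ hy₂'
  -- Step 8: the trace of `F / E₁`
  obtain ⟨y, hy, hy'⟩ := exists_trace_notMem_tower (E := E₁) (F₀ := F₀)
    (V.comap (algebraMap F L)) (algebraMap E₁ F ϖ) y₁
    (by rw [ValuationSubring.mem_comap, ← IsScalarTower.algebraMap_apply]; exact hy₁)
    (by
      rintro ⟨w, hw, hwt⟩
      apply hy₁'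
      have hϖF₀ : algebraMap E₁ F₀ ϖ ≠ 0 := (map_ne_zero _).mpr hϖ0
      have hϖF : algebraMap E₁ F ϖ ≠ 0 := (map_ne_zero _).mpr hϖ0
      refine ⟨(algebraMap E₁ F₀ ϖ)⁻¹ * algebraMap E₁ F₀ (Algebra.trace E₁ F₀ y₁), ?_,
        by rw [mul_inv_cancel_left₀ hϖF₀]⟩
      have h1 : algebraMap F₀ F ((algebraMap E₁ F₀ ϖ)⁻¹ *
          algebraMap E₁ F₀ (Algebra.trace E₁ F₀ y₁)) = w := by
        rw [map_mul, map_inv₀, ← IsScalarTower.algebraMap_apply, ← IsScalarTower.algebraMap_apply,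
          hwt, inv_mul_cancel_left₀ hϖF]
      rw [← hcomap, ValuationSubring.mem_comap, h1]
      exact hw)
    y₂ y₂.2 h0 hu
  -- Step 9: normalisation
  set c : E₁ := Algebra.trace E₁ F y with hc
  have hcV : algebraMap E₁ F c ∈ V.comap (algebraMap F L) :=
    S18.Vert.trace_mem_comap (V.comap (algebraMap F L)) y (hint y hy)
  have hcinv : (algebraMap E₁ F c)⁻¹ ∈ V.comap (algebraMap F L) := by
    by_contra hcon
    obtain ⟨z, hz, hcz⟩ := unif_comap (F := F) V ϖ hϖ hunif _ hcV hcon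
    exact hy' ⟨z, hz, hcz⟩
  have hc0 : c ≠ 0 := by
    intro h0
    apply hy'
    exact ⟨0, (V.comap (algebraMap F L)).zero_mem, by rw [h0, map_zero, mul_zero]⟩
  refine ⟨c⁻¹ • y, ?_, ?_⟩
  · rw [Algebra.smul_def, map_inv₀]
    exact (V.comap (algebraMap F L)).mul_mem _ _ hcinv hy
  · rw [map_smul, ← hc, smul_eq_mul, inv_mul_cancel₀ hc0]

end Fermat.Agent.S48.BB.V
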